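import Fermat.Agent.Ribet.H784.NCSpec
import Fermat.Agent.Ribet.H216.GaussDescent
import Fermat.Agent.S35.H891.LevelU
import Fermat.Agent.A2.Mod.H553.Fricke
import Fermat.Agent.A2.Mod.H553.Vinf
import Fermat.Agent.A2.Mod.H553.VzeroNe

/-!
# RIBET, wall at `p`, S2 leaf NC — the adapter **IN** (`H784.InLeaf`), helper847

`inLeaf : H784.InLeaf` (VERBATIM): a split-reduction class (`H103.S2.SplitRedClass`) has a Kummer
function `f = ι y` which, at `V∞` and at `V₀` (the Gauss valuation rings of `ℚ̄(X₀(N))`,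
`H708.Vinf`, `H708.Vzero`), is a constant times a `p`-th power times an element of `1 + ϖ V`, for
`ϖ = w` the uniformiser of the good level `R_{E₀}`.

Route (board `coord/RIBET-NC-helper784.md`, §1); only the finite chart `cf` is used:

1. `V∞(E₀)`, `V₀(E₀) = V∞ ∘ W` satisfy `S35.H433.ValCtx` for the standard coordinate
   (`Mod.H13.isGaussOver_xE`, `isGaussOver_comap_xE`, `S35.H891.valCtx_of_isGaussOver`) and are
   distinct (`Mod.H553.vzeroNe`), so they are the local rings of the two components of ANY chart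
   (`S35.H433.exists_dict`), and `ConstAt` is `ConstV` (`S35.H433.constAt_iff_constV`);
2. `w` is a uniformiser of `V∞` (`Mod.H553.vinfBasic`), hence of `V₀`:
   `ConstV` ⟹ `u = c (1 + w z)`, `z ∈ V` (`constV_oneMod`);
3. ascent `z ∈ V∞(E₀) ⟹ ι z ∈ H708.Vinf` (`iota_mem_Vinf`, the easy converse of
   `H216.gaussDescent`), and `ι ∘ W = w_N ∘ ι` (`Mod.H553.iota_wE`) for `V₀`.
-/

set_option autoImplicit false
set_option linter.style.haveILetI false
set_option linter.unusedSectionVars false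
set_option linter.unusedVariables false
set_option synthInstance.maxHeartbeats 400000
set_option maxHeartbeats 1600000

noncomputable section

namespace Fermat.Agent.Ribet.H847

open AlgebraicCurve ModularCurve HahnSeries
open Fermat.Agent.A2 Fermat.Agent.S24

/-! ## Abstract part -/

section Abstract

variable {R F : Type*} [CommRing R] [Field F] [Algebra R F]

/-- If `w` generates the maximal ideal of `V ⊇ R`, a function with constant residue at `V` is a
unit constant times an element of `1 + w V`. -/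
theorem constV_oneMod (V : ValuationSubring F) (w : R)
    (hR : ∀ r : R, algebraMap R F r ∈ V) (hw0 : algebraMap R F w ≠ 0)
    (hgen : ∀ f ∈ V.nonunits, f * (algebraMap R F w)⁻¹ ∈ V)
    {u : F} (h : Fermat.Agent.S35.H433.ConstV R V u) :
    ∃ c₀ : R, IsUnit c₀ ∧ ∃ z ∈ V, u = algebraMap R F c₀ * (1 + algebraMap R F w * z) := by
  obtain ⟨c₀, hc, hu⟩ := h
  obtain ⟨c₁, hc₁⟩ := isUnit_iff_exists_inv.1 hc
  have hab : algebraMap R F c₀ * algebraMap R F c₁ = 1 := by
    rw [← map_mul, hc₁, map_one]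
  refine ⟨c₀, hc, (u - algebraMap R F c₀) * (algebraMap R F w)⁻¹ * algebraMap R F c₁,
    V.mul_mem _ _ (hgen _ hu) (hR c₁), ?_⟩
  have e : algebraMap R F c₀ * (1 + algebraMap R F w *
      ((u - algebraMap R F c₀) * (algebraMap R F w)⁻¹ * algebraMap R F c₁)) =
      algebraMap R F c₀ + (algebraMap R F c₀ * algebraMap R F c₁) *
        ((algebraMap R F w * (algebraMap R F w)⁻¹) * (u - algebraMap R F c₀)) := by
    ring
  rw [e, hab, mul_inv_cancel₀ hw0]
  ring

/-- `IsUnif` in the form used by `constV_oneMod`. -/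
theorem gen_of_isUnif {V : ValuationSubring F} {ϖ : F} (h : H48.IsUnif V ϖ) :
    ∀ f ∈ V.nonunits, f * ϖ⁻¹ ∈ V := by
  intro f hf
  rcases (ValuationSubring.mem_nonunits_iff_or V).1 hf with h0 | h1
  · rw [h0, zero_mul]
    exact V.zero_mem
  · have hfV : f ∈ V := by
      rcases V.mem_or_inv_mem f with h2 | h2
      · exact h2
      · exact (h1 h2).elim
    exact h.gen f hfV h1

/-- The same for the pull back by an automorphism fixing `ϖ`. -/
theorem gen_comap_of_isUnif {V : ValuationSubring F} {ϖ : F} (h : H48.IsUnif V ϖ)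
    (W : F ≃+* F) (hW : W ϖ = ϖ) :
    ∀ f ∈ (V.comap (W : F →+* F)).nonunits, f * ϖ⁻¹ ∈ V.comap (W : F →+* F) := by
  intro f hf
  show W (f * ϖ⁻¹) ∈ V
  rw [map_mul, map_inv₀, hW]
  refine gen_of_isUnif h (W f) ?_
  rcases (ValuationSubring.mem_nonunits_iff_or _).1 hf with h0 | h1
  · rw [h0, map_zero]
    exact (ValuationSubring.mem_nonunits_iff_or V).2 (Or.inl rfl)
  · refine (ValuationSubring.mem_nonunits_iff_or V).2 (Or.inr fun h2 => h1 ?_)
    show W f⁻¹ ∈ V
    rw [map_inv₀]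
    exact h2

end Abstract

/-! ## Ascent of Gauss integrality from a level `E` to `ℚ̄` -/

/-- **Ascent** (converse of `H216.gaussDescent`): the Gauss ring `V∞` of level `E` maps into the
Gauss ring `H708.Vinf` of `ℚ̄(X₀(N))`. -/
theorem iota_mem_Vinf (P : ValuationSubring Qb) (E : IntermediateField ℚ Qb) (N : ℕ) [NeZero N]
    {ℓ : ℕ} (hℓ : ℓ ≠ 0) (hP : (ℓ : Qb) ∈ P.nonunits)
    (V : ValuationSubring (FE E N)) (hV : Mod.IsVinf P E N V) (z : FE E N) (hz : z ∈ V) :
    T1.H669.iota E (modularFunctionFieldFull N) z ∈ H708.Vinf N P hℓ hP := by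
  obtain ⟨U₁, U₂, h₂, hm₂, he⟩ := (hV z).1 hz
  show H708.IsGaussInt P (modularFunctionFieldFull N)
    ((T1.H669.iota E (modularFunctionFieldFull N) z :
      ↥(laurentBaseChange Qb (modularFunctionFieldFull N))) : LaurentSeries Qb)
  refine ⟨coeffMap (H216.reToP P E) U₁, coeffMap (H216.reToP P E) U₂,
    H216.red_coeffMap_reToP_ne_zero P E h₂, ?_, ?_⟩
  · rw [H216.incl_coeffMap_reToP]
    exact Fermat.Agent.S18.H602.coeffMap_mem_laurentBaseChange _ _ hm₂
  · rw [H216.incl_coeffMap_reToP, H216.incl_coeffMap_reToP, T1.H669.coe_iota, ← map_mul, he]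

/-- Ascent for `V₀ = V∞ ∘ W`. -/
theorem iota_mem_Vzero (P : ValuationSubring Qb) (E : IntermediateField ℚ Qb) (N : ℕ) [NeZero N]
    {ℓ : ℕ} (hℓ : ℓ ≠ 0) (hP : (ℓ : Qb) ∈ P.nonunits)
    (V : ValuationSubring (FE E N)) (hV : Mod.IsVinf P E N V) (z : FE E N)
    (hz : z ∈ V.comap (Mod.H553.wE E N : FE E N →+* FE E N)) :
    T1.H669.iota E (modularFunctionFieldFull N) z ∈ H708.Vzero N P hℓ hP := by
  have hι : ∀ t : FE E N, T1.H849.iota E (modularFunctionFieldFull N) t =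
      T1.H669.iota E (modularFunctionFieldFull N) t := fun t => Subtype.ext rfl
  have h1 : Mod.H553.wE E N z ∈ V := hz
  have h2 := iota_mem_Vinf P E N hℓ hP V hV _ h1
  rw [← hι, Mod.H553.iota_wE, hι] at h2
  exact h2

/-! ## The level statement -/

/-- Push a factorisation `y g^p = c (1 + w z)` from the level `E` to `ℚ̄`. -/
theorem deepC_of_level (P : ValuationSubring Qb) (E : IntermediateField ℚ Qb) (N : ℕ) [NeZero N]
    (p : ℕ) (𝒱 : ValuationSubring (FF N)) (w : RE P E)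
    (y g z : FE E N) (c₀ : RE P E) (hc₀ : IsUnit c₀) (hg : g ≠ 0)
    (hz : T1.H669.iota E (modularFunctionFieldFull N) z ∈ 𝒱)
    (he : y * g ^ p = algebraMap (RE P E) (FE E N) c₀ *
      (1 + algebraMap (RE P E) (FE E N) w * z)) :
    H220.DeepC Qb 𝒱 p (H220.cF N (algebraMap E Qb (w : E)))
      (T1.H669.iota E (modularFunctionFieldFull N) y) := by
  set ι := T1.H669.iota E (modularFunctionFieldFull N) with hι
  have hc0 : (c₀ : E) ≠ 0 := by
    intro h0
    have : c₀ = 0 := Subtype.ext h0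
    rw [this] at hc₀
    exact not_isUnit_zero hc₀
  have hgi : g⁻¹ ≠ 0 := inv_ne_zero hg
  refine ⟨algebraMap E Qb (c₀ : E), ι g⁻¹, 1 + H220.cF N (algebraMap E Qb (w : E)) * ι z, ?_,
    (map_ne_zero_iff _ (T1.H669.iota_injective E _)).2 hgi, ?_, ι z, hz, rfl⟩
  · exact fun h0 => hc0 ((map_eq_zero_iff _ (algebraMap E Qb).injective).1 h0)
  · have hy : y = algebraMap E (FE E N) (c₀ : E) * g⁻¹ ^ p *
        (1 + algebraMap E (FE E N) (w : E) * z) := by
      have h1 : algebraMap (RE P E) (FE E N) c₀ = algebraMap E (FE E N) (c₀ : E) := rfl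
      have h2 : algebraMap (RE P E) (FE E N) w = algebraMap E (FE E N) (w : E) := rfl
      rw [h1, h2] at he
      have hgp : g ^ p ≠ 0 := pow_ne_zero p hg
      rw [inv_pow, mul_comm (algebraMap E (FE E N) (c₀ : E)), mul_assoc, ← he]
      field_simp
    have := congrArg ι hy
    rw [map_mul, map_mul, map_pow, map_add, map_one, map_mul, hι, T1.H669.iota_algebraMap,
      T1.H669.iota_algebraMap] at this
    exact this

/-- **IN at a general level** `N = M' p` (the level cast of `InLeaf` is done by `subst`). -/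
theorem in_core (p M' N : ℕ) [NeZero M'] [NeZero p] [NeZero N] (hN : M' * p = N)
    (hp : p.Prime) (hpM : ¬ p ∣ M') (hpN : p ∣ N)
    (A : ValuationSubring Qb) (hA : A.LiesOverPrime p)
    (E : IntermediateField ℚ Qb) (hE : GoodField A E) (D : ModSSData A E N)
    (w : RE A E) (hw : Irreducible w) (y : FE E N) (cf : SSChart w D.Bf)
    (hDx : D.x = H103.S2.stdCoord E N p hpN)
    (h₁ : H103.S2.RedPowAt D.Bf cf.p₁ p y) (h₂ : H103.S2.RedPowAt D.Bf cf.p₂ p y) :
    H220.DeepC Qb (H708.Vinf N A hp.ne_zero hA) p (H220.cF N (algebraMap E Qb (w : E)))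
        (T1.H669.iota E (modularFunctionFieldFull N) y) ∧
      H220.DeepC Qb (H708.Vzero N A hp.ne_zero hA) p (H220.cF N (algebraMap E Qb (w : E)))
        (T1.H669.iota E (modularFunctionFieldFull N) y) := by
  subst hN
  haveI : IsDiscreteValuationRing ↥(RE A E) := hE.dvr
  haveI : IsAlgClosed (IsLocalRing.ResidueField ↥(RE A E)) := hE.algClosed
  have hS : Mod.Setting A E M' p w :=
    { q_prime := hp
      q_not_dvd := hpM
      M_ne_zero := NeZero.ne M'
      lies_over := hA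
      dvr := hE.dvr
      unif := hw }
  have hxe : D.x = Mod.xE E M' p := hDx
  -- the two Gauss valuation rings of level `E`
  set V := Mod.H553.VinfE A E (M' * p) with hVdef
  set W := Mod.H553.wE E (M' * p) with hWdef
  have hV : Mod.IsVinf A E (M' * p) V := Mod.H553.isVinf_VinfE A E (M' * p)
  have hW : Mod.IsFricke E (M' * p) W := Mod.H553.isFricke_wE E (M' * p)
  set V₀ : ValuationSubring (FE E (M' * p)) :=
    V.comap (W : FE E (M' * p) →+* FE E (M' * p)) with hV₀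
  have hx : Transcendental E (Mod.xE E M' p) := hxe ▸ D.hx
  have hwm : w ∈ IsLocalRing.maximalIdeal ↥(RE A E) :=
    (IsLocalRing.mem_maximalIdeal w).2 hw.not_isUnit
  have hw0 : algebraMap ↥(RE A E) (FE E (M' * p)) w ≠ 0 := by
    intro h0
    have h1 : algebraMap E (FE E (M' * p)) (w : E) = 0 := h0
    rw [map_eq_zero] at h1
    exact hw.ne_zero (Subtype.ext h1)
  have hG₁ := Mod.H13.isGaussOver_xE hw hV hx
  have hG₂ := Mod.H13.isGaussOver_comap_xE hw hV hW hx
  have hc₁ : Fermat.Agent.S35.H433.ValCtx w D.x V := by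
    rw [hxe]
    exact Fermat.Agent.S35.H891.valCtx_of_isGaussOver hwm hw0 hG₁
  have hc₂ : Fermat.Agent.S35.H433.ValCtx w D.x V₀ := by
    rw [hxe]
    exact Fermat.Agent.S35.H891.valCtx_of_isGaussOver hwm hw0 hG₂
  have hne : V ≠ V₀ := fun h =>
    Mod.H553.vzeroNe (P := A) (E := E) (M := M') (q := p) w hS V W hV hW h.symm
  -- `w` is a uniformiser of both
  have hN0 : M' * p ≠ 0 := NeZero.ne _
  have hunif : H48.IsUnif V (Mod.cE A E (M' * p) w) :=
    (Mod.H553.vinfBasic (P := A) (E := E) w (M' * p) hN0 hE.dvr hw V hV).1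
  have hgen₁ : ∀ f ∈ V.nonunits,
      f * (algebraMap ↥(RE A E) (FE E (M' * p)) w)⁻¹ ∈ V := gen_of_isUnif hunif
  have hgen₂ : ∀ f ∈ V₀.nonunits,
      f * (algebraMap ↥(RE A E) (FE E (M' * p)) w)⁻¹ ∈ V₀ :=
    gen_comap_of_isUnif hunif (W : FE E (M' * p) ≃+* FE E (M' * p)) (W.commutes (w : E))
  -- the dictionary chart ↔ valuation
  have hB : Alg.ChartCtx E w D.x D.Bf := ⟨hw, D.hx, D.hfin, D.hconst, D.hBf⟩
  have hp₁ := cf.prime₁
  have hp₂ := cf.prime₂
  obtain ⟨g₁, hg₁, hk₁⟩ := h₁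
  obtain ⟨g₂, hg₂, hk₂⟩ := h₂
  have key : (∃ g : FE E (M' * p), g ≠ 0 ∧
        Fermat.Agent.S35.H433.ConstV ↥(RE A E) V (y * g ^ p)) ∧
      ∃ g : FE E (M' * p), g ≠ 0 ∧ Fermat.Agent.S35.H433.ConstV ↥(RE A E) V₀ (y * g ^ p) := by
    rcases Fermat.Agent.S35.H433.exists_dict w D.x D.Bf hB cf V V₀ hc₁ hc₂ hne with
      ⟨⟨-, d₁⟩, ⟨-, d₂⟩⟩ | ⟨⟨-, d₁⟩, ⟨-, d₂⟩⟩
    · exact ⟨⟨g₁, hg₁, (Fermat.Agent.S35.H433.constAt_iff_constV d₁).1 hk₁⟩,
        ⟨g₂, hg₂, (Fermat.Agent.S35.H433.constAt_iff_constV d₂).1 hk₂⟩⟩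
    · exact ⟨⟨g₂, hg₂, (Fermat.Agent.S35.H433.constAt_iff_constV d₁).1 hk₂⟩,
        ⟨g₁, hg₁, (Fermat.Agent.S35.H433.constAt_iff_constV d₂).1 hk₁⟩⟩
  obtain ⟨⟨g, hg, hcV⟩, ⟨g', hg', hcV'⟩⟩ := key
  obtain ⟨c₀, hc₀, z, hz, he⟩ := constV_oneMod V w hc₁.hR hw0 hgen₁ hcV
  obtain ⟨c₀', hc₀', z', hz', he'⟩ := constV_oneMod V₀ w hc₂.hR hw0 hgen₂ hcV'
  exact ⟨deepC_of_level A E (M' * p) p _ w y g z c₀ hc₀ hg
      (iota_mem_Vinf A E (M' * p) hp.ne_zero hA V hV z hz) he,
    deepC_of_level A E (M' * p) p _ w y g' z' c₀' hc₀' hg'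
      (iota_mem_Vzero A E (M' * p) hp.ne_zero hA V hV z' hz') he'⟩

/-! ## The leaf -/

/-- **Leaf IN** — `H784.InLeaf`, verbatim. -/
theorem inLeaf : H784.InLeaf := by
  intro p M' _ _ _ hp hpM A hA x hx
  obtain ⟨E, hE, D, w, y, cf, ci, hDx, hw, hK, h₁, h₂, -, -, -, -⟩ := hx
  haveI : IsDiscreteValuationRing ↥(RE A E) := hE.dvr
  obtain ⟨hI, hZ⟩ := in_core p M' (p * M') (Nat.mul_comm M' p) hp hpM (dvd_mul_right p M')
    A hA E hE D w hw y cf hDx h₁ h₂
  refine ⟨_, hK, algebraMap E Qb (w : E), ?_, ?_, ?_, hI, hZ⟩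
  · exact fun h0 => hw.ne_zero
      (Subtype.ext ((map_eq_zero_iff _ (algebraMap E Qb).injective).1 h0))
  · refine (ValuationSubring.mem_nonunits_iff_or A).2 (Or.inr fun hinv => hw.not_isUnit ?_)
    have hmem : ((w : E))⁻¹ ∈ RE A E := by
      show algebraMap E Qb ((w : E))⁻¹ ∈ A
      rw [map_inv₀]
      exact hinv
    refine isUnit_iff_exists_inv.2 ⟨⟨_, hmem⟩, Subtype.ext ?_⟩
    show (w : E) * ((w : E))⁻¹ = 1
    exact mul_inv_cancel₀ fun h0 => hw.ne_zero (Subtype.ext h0)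
  · have hpm := T1.H669.natCast_mem_maximalIdeal_RE E hA
    rw [hw.maximalIdeal_eq, Ideal.mem_span_singleton] at hpm
    obtain ⟨e, he⟩ := hpm
    refine ⟨algebraMap E Qb (e : E), e.2, ?_⟩
    have := congrArg (fun t : ↥(RE A E) => algebraMap E Qb (t : E)) he
    simpa using this

end Fermat.Agent.Ribet.H847

end
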